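import Fermat.Agent.MUL.Orig.S05.H65.Vieta
import Fermat.Agent.MUL.Orig.Lib.MultRed.Comp.Half

/-!
# From a (multiplicative) Mathlib valuation to the additive framework `S05H65.AVal`

`S05H27.ofValuation v : S05H65.AVal K (Additive (Γ₀ˣ)ᵒᵈ)` together with transfer lemmas.
-/

set_option autoImplicit false

namespace S05H27

open S05H65

variable {K : Type*} [Field K] {Γ₀ : Type*} [LinearOrderedCommGroupWithZero Γ₀]
  (v : Valuation K Γ₀)

/-- The additive value of a nonzero element. -/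
noncomputable def wUnit {x : K} (hx : x ≠ 0) : Additive (Γ₀ˣ)ᵒᵈ :=
  Additive.ofMul (OrderDual.toDual (Units.mk0 (v x) ((Valuation.ne_zero_iff v).mpr hx)))

/-- The additive valuation function (junk value `0` at `0`). -/
noncomputable def wFun (x : K) : Additive (Γ₀ˣ)ᵒᵈ :=
  open Classical in if hx : x = 0 then 0 else wUnit v hx

lemma wFun_of_ne {x : K} (hx : x ≠ 0) : wFun v x = wUnit v hx := by
  simp only [wFun, dif_neg hx]

lemma wUnit_le_iff {x y : K} (hx : x ≠ 0) (hy : y ≠ 0) :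
    wUnit v hx ≤ wUnit v hy ↔ v y ≤ v x := by
  simp only [wUnit]
  rw [Additive.ofMul_le, OrderDual.toDual_le_toDual, ← Units.val_le_val]
  rfl

lemma wUnit_lt_iff {x y : K} (hx : x ≠ 0) (hy : y ≠ 0) :
    wUnit v hx < wUnit v hy ↔ v y < v x := by
  simp only [wUnit]
  rw [Additive.ofMul_lt, OrderDual.toDual_lt_toDual, ← Units.val_lt_val]
  rfl

lemma wUnit_eq_iff {x y : K} (hx : x ≠ 0) (hy : y ≠ 0) :
    wUnit v hx = wUnit v hy ↔ v x = v y := by
  simp only [wUnit]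
  constructor
  · intro h
    have h1 := Additive.ofMul.injective h
    have h2 := OrderDual.toDual.injective h1
    exact congrArg Units.val h2
  · intro h
    congr 2
    exact Units.ext h

lemma wUnit_mul {x y : K} (hx : x ≠ 0) (hy : y ≠ 0) :
    wUnit v (mul_ne_zero hx hy) = wUnit v hx + wUnit v hy := by
  simp only [wUnit]
  rw [← ofMul_mul, ← toDual_mul]
  congr 2
  exact Units.ext (by simp)

lemma wUnit_one : wUnit v (one_ne_zero : (1 : K) ≠ 0) = 0 := by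
  simp only [wUnit]
  rw [← ofMul_one]
  congr 1
  rw [← toDual_one]
  congr 1
  exact Units.ext (by simp)

/-- The additive valuation attached to a Mathlib valuation. -/
noncomputable def ofValuation : AVal K (Additive (Γ₀ˣ)ᵒᵈ) where
  w := wFun v
  w_mul' x y hx hy := by
    rw [wFun_of_ne v hx, wFun_of_ne v hy, wFun_of_ne v (mul_ne_zero hx hy), wUnit_mul]
  w_add' x y hx hy hxy := by
    rw [wFun_of_ne v hx, wFun_of_ne v hy, wFun_of_ne v hxy]
    have h := v.map_add x y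
    rcases le_max_iff.mp h with h1 | h1
    · exact (min_le_left _ _).trans ((wUnit_le_iff v hx hxy).mpr h1)
    · exact (min_le_right _ _).trans ((wUnit_le_iff v hy hxy).mpr h1)

lemma ofValuation_w_of_ne {x : K} (hx : x ≠ 0) : (ofValuation v).w x = wUnit v hx :=
  wFun_of_ne v hx

/-! ### Comparison of two nonzero elements -/

lemma w_le_w_iff {x y : K} (hx : x ≠ 0) (hy : y ≠ 0) :
    (ofValuation v).w x ≤ (ofValuation v).w y ↔ v y ≤ v x := by
  rw [ofValuation_w_of_ne v hx, ofValuation_w_of_ne v hy, wUnit_le_iff]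

lemma w_lt_w_iff {x y : K} (hx : x ≠ 0) (hy : y ≠ 0) :
    (ofValuation v).w x < (ofValuation v).w y ↔ v y < v x := by
  rw [ofValuation_w_of_ne v hx, ofValuation_w_of_ne v hy, wUnit_lt_iff]

lemma w_eq_w_iff {x y : K} (hx : x ≠ 0) (hy : y ≠ 0) :
    (ofValuation v).w x = (ofValuation v).w y ↔ v x = v y := by
  rw [ofValuation_w_of_ne v hx, ofValuation_w_of_ne v hy, wUnit_eq_iff]

lemma zero_eq_w_one : (0 : Additive (Γ₀ˣ)ᵒᵈ) = (ofValuation v).w 1 :=
  ((ofValuation v).w_one).symm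

lemma zero_le_w_iff {x : K} (hx : x ≠ 0) : 0 ≤ (ofValuation v).w x ↔ v x ≤ 1 := by
  rw [zero_eq_w_one v, w_le_w_iff v one_ne_zero hx, map_one]

lemma zero_lt_w_iff {x : K} (hx : x ≠ 0) : 0 < (ofValuation v).w x ↔ v x < 1 := by
  rw [zero_eq_w_one v, w_lt_w_iff v one_ne_zero hx, map_one]

lemma w_le_zero_iff {x : K} (hx : x ≠ 0) : (ofValuation v).w x ≤ 0 ↔ 1 ≤ v x := by
  rw [zero_eq_w_one v, w_le_w_iff v hx one_ne_zero, map_one]

lemma w_lt_zero_iff {x : K} (hx : x ≠ 0) : (ofValuation v).w x < 0 ↔ 1 < v x := by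
  rw [zero_eq_w_one v, w_lt_w_iff v hx one_ne_zero, map_one]

lemma w_eq_zero_iff {x : K} (hx : x ≠ 0) : (ofValuation v).w x = 0 ↔ v x = 1 := by
  rw [zero_eq_w_one v, w_eq_w_iff v hx one_ne_zero, map_one]

/-! ### Transfer lemmas for the predicates `Gt`, `Ge`, `Ex`, `NotM` -/

/-- `v x < 1 ↔ Gt x 0`. -/
theorem lt_one_iff_gt (x : K) : v x < 1 ↔ (ofValuation v).Gt x 0 := by
  unfold AVal.Gt
  by_cases hx : x = 0
  · simp [hx]
  · rw [zero_lt_w_iff v hx]
    simp [hx]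

/-- `v x ≤ 1 ↔ Ge x 0`. -/
theorem le_one_iff_ge (x : K) : v x ≤ 1 ↔ (ofValuation v).Ge x 0 := by
  unfold AVal.Ge
  by_cases hx : x = 0
  · simp [hx]
  · rw [zero_le_w_iff v hx]
    simp [hx]

/-- `v x = 1 ↔ Ex x 0`. -/
theorem eq_one_iff_ex (x : K) : v x = 1 ↔ (ofValuation v).Ex x 0 := by
  unfold AVal.Ex
  by_cases hx : x = 0
  · simp [hx]
  · rw [w_eq_zero_iff v hx]
    simp [hx]

/-- `1 ≤ v x ↔ NotM x`. -/
theorem one_le_iff_notM (x : K) : 1 ≤ v x ↔ (ofValuation v).NotM x := by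
  unfold AVal.NotM
  by_cases hx : x = 0
  · simp [hx]
  · rw [w_le_zero_iff v hx]
    simp [hx]

/-- `1 < v x ↔ x ≠ 0 ∧ w x < 0`. -/
theorem one_lt_iff (x : K) : 1 < v x ↔ x ≠ 0 ∧ (ofValuation v).w x < 0 := by
  by_cases hx : x = 0
  · simp [hx]
  · rw [w_lt_zero_iff v hx]
    simp [hx]

/-- For `y ≠ 0`: `v x = v y ↔ Ex x (w y)`. -/
theorem eq_iff_ex {x y : K} (hy : y ≠ 0) : v x = v y ↔ (ofValuation v).Ex x ((ofValuation v).w y) := by
  unfold AVal.Ex
  by_cases hx : x = 0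
  · have : v y ≠ 0 := (Valuation.ne_zero_iff v).mpr hy
    simp [hx, this.symm]
  · rw [w_eq_w_iff v hx hy]
    simp [hx]

/-- For `y ≠ 0`: `v x ≤ v y ↔ Ge x (w y)`. -/
theorem le_iff_ge {x y : K} (hy : y ≠ 0) : v x ≤ v y ↔ (ofValuation v).Ge x ((ofValuation v).w y) := by
  unfold AVal.Ge
  by_cases hx : x = 0
  · simp [hx]
  · rw [w_le_w_iff v hy hx]
    simp [hx]

/-- For `y ≠ 0`: `v x < v y ↔ Gt x (w y)`. -/
theorem lt_iff_gt {x y : K} (hy : y ≠ 0) : v x < v y ↔ (ofValuation v).Gt x ((ofValuation v).w y) := by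
  unfold AVal.Gt
  by_cases hx : x = 0
  · have : v y ≠ 0 := (Valuation.ne_zero_iff v).mpr hy
    simp [hx, zero_lt_iff, this]
  · rw [w_lt_w_iff v hy hx]
    simp [hx]

/-- For `e ≠ 0`: `v x = v e ^ M ↔ Ex x (M • w e)`. -/
theorem eq_pow_iff_ex {x e : K} (he : e ≠ 0) (M : ℕ) :
    v x = v e ^ M ↔ (ofValuation v).Ex x (M • (ofValuation v).w e) := by
  rw [← map_pow, eq_iff_ex v (pow_ne_zero M he), (ofValuation v).w_pow he]

/-- For `e ≠ 0`: `Ex e (w e)`. -/
theorem ex_self {e : K} (he : e ≠ 0) : (ofValuation v).Ex e ((ofValuation v).w e) := ⟨he, rfl⟩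

end S05H27
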